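/-
PROJECT W (S52), (T2) constancy, explicit route: Klein's icosahedral forms `f, H, T` and the two
rational points `Q = (3 q10, 108 q15)`, `2Q = (3 r10, 108 r15)` of order `5` on Klein's curve
`E_(u,v) : y² = x³ + 27 H x + 54 T` (`c₄ = -H`, `c₆ = -T`).  Everything in this file is a polynomial
identity over an arbitrary commutative ring, checked by `ring`; the forms were found offline by exact
arithmetic (pure python) and nothing but the identities below is used.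
-/
import Mathlib

set_option autoImplicit false

namespace Fermat.Agent.S52.Const.Torsion.Forms

variable {R : Type*} [CommRing R]

/-- Klein's invariant of degree 12 (the vertices of the icosahedron; the cusps of `X(5)`). -/
def kf (u v : R) : R := u * v * (u ^ 10 + 11 * u ^ 5 * v ^ 5 - v ^ 10)

/-- Klein's invariant of degree 20 (`H = Hess f / 121`). -/
def kH (u v : R) : R :=
  -(u ^ 20 + v ^ 20) + 228 * (u ^ 15 * v ^ 5 - u ^ 5 * v ^ 15) - 494 * u ^ 10 * v ^ 10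

/-- Klein's invariant of degree 30. -/
def kT (u v : R) : R :=
  u ^ 30 + v ^ 30 + 522 * (u ^ 25 * v ^ 5 - u ^ 5 * v ^ 25)
    - 10005 * (u ^ 20 * v ^ 10 + u ^ 10 * v ^ 20)

/-- the quadratic factor `(u - ε₁ v)(u - ε₂ v)`, `ε = (-1 ± √5)/2`, of `f`. -/
def kg (u v : R) : R := u ^ 2 + u * v - v ^ 2

/-- `x(Q) / 3`. -/
def q10 (u v : R) : R :=
  v ^ 10 + 12 * u * v ^ 9 + 24 * u ^ 2 * v ^ 8 + 36 * u ^ 3 * v ^ 7 + 60 * u ^ 4 * v ^ 6 + 30 * u ^ 5 * v ^ 5 + 24 * u ^ 6 * v ^ 4 - 12 * u ^ 7 * v ^ 3 + 12 * u ^ 8 * v ^ 2 + u ^ 10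

/-- `y(Q) / 108`. -/
def q15 (u v : R) : R :=
  u * v ^ 14 + 4 * u ^ 2 * v ^ 13 + 9 * u ^ 3 * v ^ 12 + 15 * u ^ 4 * v ^ 11 + 25 * u ^ 5 * v ^ 10 + 29 * u ^ 6 * v ^ 9 + 21 * u ^ 7 * v ^ 8 + 6 * u ^ 8 * v ^ 7 + 5 * u ^ 9 * v ^ 6 + 4 * u ^ 11 * v ^ 4 + u ^ 12 * v ^ 3 + u ^ 13 * v ^ 2

/-- `x(2Q) / 3`. -/
def r10 (u v : R) : R :=
  v ^ 10 + 12 * u ^ 2 * v ^ 8 + 12 * u ^ 3 * v ^ 7 + 24 * u ^ 4 * v ^ 6 - 30 * u ^ 5 * v ^ 5 + 60 * u ^ 6 * v ^ 4 - 36 * u ^ 7 * v ^ 3 + 24 * u ^ 8 * v ^ 2 - 12 * u ^ 9 * v + u ^ 10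

/-- `y(2Q) / 108`. -/
def r15 (u v : R) : R :=
  u ^ 2 * v ^ 13 - u ^ 3 * v ^ 12 + 4 * u ^ 4 * v ^ 11 + 5 * u ^ 6 * v ^ 9 - 6 * u ^ 7 * v ^ 8 + 21 * u ^ 8 * v ^ 7 - 29 * u ^ 9 * v ^ 6 + 25 * u ^ 10 * v ^ 5 - 15 * u ^ 11 * v ^ 4 + 9 * u ^ 12 * v ^ 3 - 4 * u ^ 13 * v ^ 2 + u ^ 14 * v

/-- Klein's syzygy. -/
theorem syzygy (u v : R) : kT u v ^ 2 + kH u v ^ 3 = 1728 * kf u v ^ 5 := by
  unfold kT kH kf; ring

/-- `Q` lies on the curve `y² = x³ + 27 H x + 54 T`. -/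
theorem onCurve_Q (u v : R) :
    (108 * q15 u v) ^ 2 = (3 * q10 u v) ^ 3 + 27 * kH u v * (3 * q10 u v) + 54 * kT u v := by
  unfold q15 q10 kH kT; ring

/-- `2Q` lies on the curve. -/
theorem onCurve_Q2 (u v : R) :
    (108 * r15 u v) ^ 2 = (3 * r10 u v) ^ 3 + 27 * kH u v * (3 * r10 u v) + 54 * kT u v := by
  unfold r15 r10 kH kT; ring

/-- duplication of `Q`, `x`-coordinate: `λ² = x(2Q) + 2 x(Q)` with `λ = (3x² + a₄)/(2y)`. -/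
theorem dbl_x (u v : R) :
    (3 * (3 * q10 u v) ^ 2 + 27 * kH u v) ^ 2
      = (3 * r10 u v + 2 * (3 * q10 u v)) * (2 * (108 * q15 u v)) ^ 2 := by
  unfold q15 q10 r10 kH; ring

/-- duplication of `Q`, `y`-coordinate: `2y · y(2Q) = -2y² - (3x² + a₄)(x(2Q) - x)`. -/
theorem dbl_y (u v : R) :
    2 * (108 * q15 u v) * (108 * r15 u v)
      = -(2 * (108 * q15 u v) ^ 2)
        - (3 * (3 * q10 u v) ^ 2 + 27 * kH u v) * (3 * r10 u v - 3 * q10 u v) := by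
  unfold q15 q10 r10 r15 kH; ring

/-- duplication of `2Q`, `x`-coordinate: `x(4Q) = x(Q)`. -/
theorem dbl2_x (u v : R) :
    (3 * (3 * r10 u v) ^ 2 + 27 * kH u v) ^ 2
      = (3 * q10 u v + 2 * (3 * r10 u v)) * (2 * (108 * r15 u v)) ^ 2 := by
  unfold r15 q10 r10 kH; ring

/-- duplication of `2Q`, `y`-coordinate: `y(4Q) = -y(Q)`. -/
theorem dbl2_y (u v : R) :
    2 * (108 * r15 u v) * (-(108 * q15 u v))
      = -(2 * (108 * r15 u v) ^ 2)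
        - (3 * (3 * r10 u v) ^ 2 + 27 * kH u v) * (3 * q10 u v - 3 * r10 u v) := by
  unfold q15 q10 r10 r15 kH; ring

/-- `x(Q) ≠ x(2Q)` away from the cusps. -/
theorem x_sub_x (u v : R) : (q10 u v - r10 u v) * kg u v = 12 * kf u v := by
  unfold q10 r10 kg kf; ring

/-- `y(Q) y(2Q) ≠ 0` away from the cusps. -/
theorem y_mul_y (u v : R) : q15 u v * r15 u v * kg u v ^ 3 = kf u v ^ 3 := by
  unfold q15 r15 kg kf; ring

end Fermat.Agent.S52.Const.Torsion.Forms
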