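/-
PROJECT W (S52), (T2) constancy, explicit route: the point `Q` of order `5` on Klein's curve
`E_(u,v) : y² = x³ + 27 c⁴ H x + 54 c⁶ T` over a field of characteristic zero, away from the cusps
(`f(u,v) ≠ 0`), with the scaling parameter `c ≠ 0` (`c = 1`: `c₄ = -H`, `c₆ = -T`;
`3 c² = 1`: the model `y² = x³ + 3 H x + 2 T`).
-/
import Mathlib
import Fermat.Agent.S52.Const.Torsion.Forms

set_option autoImplicit false

noncomputable section

namespace Fermat.Agent.S52.Const.Torsion.Points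

open WeierstrassCurve WeierstrassCurve.Affine WeierstrassCurve.Affine.Point
open Fermat.Agent.S52.Const.Torsion.Forms

variable {F : Type*} [Field F] [DecidableEq F]

/-- the short Weierstrass curve `y² = x³ + a₄ x + a₆`. -/
def short (a4 a6 : F) : Affine F := ⟨0, 0, 0, a4, a6⟩

omit [DecidableEq F] in
theorem short_equation (a4 a6 x y : F) :
    (short a4 a6).Equation x y ↔ y ^ 2 = x ^ 3 + a4 * x + a6 := by
  rw [Affine.equation_iff]
  simp only [short]
  constructor <;> intro h <;> linear_combination h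

omit [DecidableEq F] in
theorem short_nonsingular_of_ne [NeZero (2 : F)] {a4 a6 x y : F}
    (h : y ^ 2 = x ^ 3 + a4 * x + a6) (hy : y ≠ 0) : (short a4 a6).Nonsingular x y := by
  rw [Affine.nonsingular_iff]
  refine ⟨(short_equation a4 a6 x y).mpr h, Or.inr ?_⟩
  simp only [short]
  intro h'
  have h2 : (2 : F) * y = 0 := by linear_combination h'
  rcases mul_eq_zero.mp h2 with h0 | h0
  · exact NeZero.ne (2 : F) h0
  · exact hy h0

/-- the duplication formula on a short Weierstrass curve, in polynomial form. -/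
theorem short_dbl [NeZero (2 : F)] {a4 a6 x y x2 y2 : F}
    (h : (short a4 a6).Nonsingular x y) (h2 : (short a4 a6).Nonsingular x2 y2) (hy : y ≠ 0)
    (hx : (3 * x ^ 2 + a4) ^ 2 = (x2 + 2 * x) * (2 * y) ^ 2)
    (hyy : 2 * y * y2 = -(2 * y ^ 2) - (3 * x ^ 2 + a4) * (x2 - x)) :
    Point.some _ _ h + Point.some _ _ h = Point.some _ _ h2 := by
  have h2y : (2 : F) * y ≠ 0 := mul_ne_zero (NeZero.ne (2 : F)) hy
  have hne : y ≠ (short a4 a6).negY x y := by
    simp only [Affine.negY, short]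
    intro h'
    exact h2y (by linear_combination h')
  rw [add_self_of_Y_ne hne]
  have hs : (short a4 a6).slope x x y y = (3 * x ^ 2 + a4) / (2 * y) := by
    rw [Affine.slope_of_Y_ne rfl hne]
    simp only [Affine.negY, short]
    congr 1 <;> ring
  have hX : (short a4 a6).addX x x ((short a4 a6).slope x x y y) = x2 := by
    rw [hs]
    simp only [Affine.addX, short]
    field_simp
    linear_combination hx
  have hY : (short a4 a6).addY x x y ((short a4 a6).slope x x y y) = y2 := by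
    simp only [Affine.addY, Affine.negAddY, Affine.negY, hX]
    rw [hs]
    simp only [short]
    field_simp
    linear_combination (-1 : F) * hyy
  simp only [Point.some.injEq]
  exact ⟨hX, hY⟩

/-! ### Klein's curve and the point `Q` -/

variable [CharZero F]

/-- `x(Q)`. -/
def xQ (u v c : F) : F := 3 * c ^ 2 * q10 u v
/-- `y(Q)`. -/
def yQ (u v c : F) : F := 108 * c ^ 3 * q15 u v
/-- `x(2Q)`. -/
def xQ2 (u v c : F) : F := 3 * c ^ 2 * r10 u v
/-- `y(2Q)`. -/
def yQ2 (u v c : F) : F := 108 * c ^ 3 * r15 u v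

omit [DecidableEq F] [CharZero F] in
theorem kg_ne_zero {u v : F} (hf : kf u v ≠ 0) : kg u v ≠ 0 := by
  intro h
  have := y_mul_y u v
  rw [h] at this
  exact hf (pow_eq_zero_iff (n := 3) (by norm_num) |>.mp (by rw [← this]; ring))

omit [DecidableEq F] [CharZero F] in
theorem q15_ne_zero {u v : F} (hf : kf u v ≠ 0) : q15 u v ≠ 0 := by
  intro h
  have := y_mul_y u v
  rw [h] at this
  exact hf (pow_eq_zero_iff (n := 3) (by norm_num) |>.mp (by rw [← this]; ring))

omit [DecidableEq F] [CharZero F] in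
theorem r15_ne_zero {u v : F} (hf : kf u v ≠ 0) : r15 u v ≠ 0 := by
  intro h
  have := y_mul_y u v
  rw [h] at this
  exact hf (pow_eq_zero_iff (n := 3) (by norm_num) |>.mp (by rw [← this]; ring))

omit [DecidableEq F] in
theorem q10_ne_r10 {u v : F} (hf : kf u v ≠ 0) : q10 u v ≠ r10 u v := by
  intro h
  have := x_sub_x u v
  rw [h, sub_self, zero_mul] at this
  have h12 : (12 : F) ≠ 0 := by norm_num
  exact (mul_ne_zero h12 hf) this.symm

omit [DecidableEq F] in
theorem yQ_ne_zero {u v c : F} (hc : c ≠ 0) (hf : kf u v ≠ 0) : yQ u v c ≠ 0 := by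
  unfold yQ
  have h108 : (108 : F) ≠ 0 := by norm_num
  exact mul_ne_zero (mul_ne_zero h108 (pow_ne_zero _ hc)) (q15_ne_zero hf)

omit [DecidableEq F] in
theorem yQ2_ne_zero {u v c : F} (hc : c ≠ 0) (hf : kf u v ≠ 0) : yQ2 u v c ≠ 0 := by
  unfold yQ2
  have h108 : (108 : F) ≠ 0 := by norm_num
  exact mul_ne_zero (mul_ne_zero h108 (pow_ne_zero _ hc)) (r15_ne_zero hf)

omit [DecidableEq F] in
theorem xQ_ne_xQ2 {u v c : F} (hc : c ≠ 0) (hf : kf u v ≠ 0) : xQ u v c ≠ xQ2 u v c := by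
  unfold xQ xQ2
  intro h
  have h3 : (3 : F) * c ^ 2 ≠ 0 := mul_ne_zero (by norm_num) (pow_ne_zero _ hc)
  exact q10_ne_r10 hf (mul_left_cancel₀ h3 h)

/-- A Klein parameter of the short Weierstrass curve `y² = x³ + a₄ x + a₆`: a point `(u, v)` away
from the cusps and a scaling `c ≠ 0` with `a₄ = 27 c⁴ H(u,v)`, `a₆ = 54 c⁶ T(u,v)`. -/
structure KleinPt (a4 a6 : F) where
  /-- first coordinate -/
  u : F
  /-- second coordinate -/
  v : F
  /-- scaling -/
  c : F
  hc : c ≠ 0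
  hf : kf u v ≠ 0
  h4 : a4 = 27 * c ^ 4 * kH u v
  h6 : a6 = 54 * c ^ 6 * kT u v

namespace KleinPt

variable {a4 a6 : F} (D : KleinPt a4 a6)

omit [DecidableEq F] in
theorem nonsingular_Q : (short a4 a6).Nonsingular (xQ D.u D.v D.c) (yQ D.u D.v D.c) := by
  refine short_nonsingular_of_ne ?_ (yQ_ne_zero D.hc D.hf)
  have h4 := D.h4
  have h6 := D.h6
  unfold yQ xQ
  linear_combination D.c ^ 6 * onCurve_Q D.u D.v - (3 * D.c ^ 2 * q10 D.u D.v) * h4 - h6

omit [DecidableEq F] in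
theorem nonsingular_Q2 : (short a4 a6).Nonsingular (xQ2 D.u D.v D.c) (yQ2 D.u D.v D.c) := by
  refine short_nonsingular_of_ne ?_ (yQ2_ne_zero D.hc D.hf)
  have h4 := D.h4
  have h6 := D.h6
  unfold yQ2 xQ2
  linear_combination D.c ^ 6 * onCurve_Q2 D.u D.v - (3 * D.c ^ 2 * r10 D.u D.v) * h4 - h6

omit [DecidableEq F] in
theorem nonsingular_negQ : (short a4 a6).Nonsingular (xQ D.u D.v D.c) (-yQ D.u D.v D.c) := by
  refine short_nonsingular_of_ne ?_ (neg_ne_zero.mpr (yQ_ne_zero D.hc D.hf))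
  have h4 := D.h4
  have h6 := D.h6
  unfold yQ xQ
  linear_combination D.c ^ 6 * onCurve_Q D.u D.v - (3 * D.c ^ 2 * q10 D.u D.v) * h4 - h6

omit [DecidableEq F] in
theorem nonsingular_negQ2 :
    (short a4 a6).Nonsingular (xQ2 D.u D.v D.c) (-yQ2 D.u D.v D.c) := by
  refine short_nonsingular_of_ne ?_ (neg_ne_zero.mpr (yQ2_ne_zero D.hc D.hf))
  have h4 := D.h4
  have h6 := D.h6
  unfold yQ2 xQ2
  linear_combination D.c ^ 6 * onCurve_Q2 D.u D.v - (3 * D.c ^ 2 * r10 D.u D.v) * h4 - h6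

/-- the point `Q`. -/
def pt : (short a4 a6).Point := Point.some _ _ D.nonsingular_Q

/-- the point `2Q`. -/
def pt2 : (short a4 a6).Point := Point.some _ _ D.nonsingular_Q2

omit [DecidableEq F] in
theorem neg_pt : -D.pt = Point.some _ _ D.nonsingular_negQ := by
  unfold pt
  rw [Point.neg_some]
  simp only [Point.some.injEq, true_and]
  simp [Affine.negY, short]

omit [DecidableEq F] in
theorem neg_pt2 : -D.pt2 = Point.some _ _ D.nonsingular_negQ2 := by
  unfold pt2
  rw [Point.neg_some]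
  simp only [Point.some.injEq, true_and]
  simp [Affine.negY, short]

theorem pt_add_self : D.pt + D.pt = D.pt2 := by
  unfold pt pt2
  refine short_dbl _ _ (yQ_ne_zero D.hc D.hf) ?_ ?_
  · have h4 := D.h4
    unfold xQ xQ2 yQ
    linear_combination (exp := 1) D.c ^ 8 * dbl_x D.u D.v
      + (2 * (3 * (3 * D.c ^ 2 * q10 D.u D.v) ^ 2) + a4 + 27 * D.c ^ 4 * kH D.u D.v) * h4
  · have h4 := D.h4
    unfold xQ xQ2 yQ yQ2
    linear_combination D.c ^ 6 * dbl_y D.u D.v
      + (3 * D.c ^ 2 * r10 D.u D.v - 3 * D.c ^ 2 * q10 D.u D.v) * h4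

theorem pt2_add_self : D.pt2 + D.pt2 = -D.pt := by
  rw [neg_pt]
  unfold pt2
  refine short_dbl _ _ (yQ2_ne_zero D.hc D.hf) ?_ ?_
  · have h4 := D.h4
    unfold xQ xQ2 yQ2
    linear_combination (exp := 1) D.c ^ 8 * dbl2_x D.u D.v
      + (2 * (3 * (3 * D.c ^ 2 * r10 D.u D.v) ^ 2) + a4 + 27 * D.c ^ 4 * kH D.u D.v) * h4
  · have h4 := D.h4
    unfold xQ xQ2 yQ yQ2
    linear_combination D.c ^ 6 * dbl2_y D.u D.v
      + (3 * D.c ^ 2 * q10 D.u D.v - 3 * D.c ^ 2 * r10 D.u D.v) * h4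

theorem five_nsmul_pt : (5 : ℕ) • D.pt = 0 := by
  have h1 := D.pt_add_self
  have h2 := D.pt2_add_self
  have : (5 : ℕ) • D.pt = ((D.pt + D.pt) + (D.pt + D.pt)) + D.pt := by abel
  rw [this, h1, h2, neg_add_cancel]

omit [DecidableEq F] in
theorem pt_ne_zero : D.pt ≠ 0 := Point.some_ne_zero _

omit [DecidableEq F] in
theorem pt2_ne_zero : D.pt2 ≠ 0 := Point.some_ne_zero _

theorem two_nsmul_pt : (2 : ℕ) • D.pt = D.pt2 := by rw [two_nsmul, D.pt_add_self]

theorem three_nsmul_pt : (3 : ℕ) • D.pt = -D.pt2 := by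
  have h5 := D.five_nsmul_pt
  have h2 := D.two_nsmul_pt
  have : (5 : ℕ) • D.pt = (3 : ℕ) • D.pt + (2 : ℕ) • D.pt := by rw [← add_nsmul]
  rw [this, h2] at h5
  exact eq_neg_of_add_eq_zero_left h5

theorem four_nsmul_pt : (4 : ℕ) • D.pt = -D.pt := by
  have h5 := D.five_nsmul_pt
  have : (5 : ℕ) • D.pt = (4 : ℕ) • D.pt + D.pt := by rw [succ_nsmul]
  rw [this] at h5
  exact eq_neg_of_add_eq_zero_left h5

/-- every multiple of `Q` is `0` or has `x`-coordinate `x(Q)` or `x(2Q)`. -/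
theorem nsmul_pt_cases (n : ℕ) :
    n • D.pt = 0 ∨ n • D.pt = D.pt ∨ n • D.pt = -D.pt ∨ n • D.pt = D.pt2 ∨ n • D.pt = -D.pt2 := by
  have h5 := D.five_nsmul_pt
  have hn : n • D.pt = (n % 5) • D.pt := by
    conv_lhs => rw [← Nat.div_add_mod n 5, add_nsmul, mul_nsmul, h5, nsmul_zero, zero_add]
  rw [hn]
  have : n % 5 < 5 := Nat.mod_lt _ (by norm_num)
  interval_cases (n % 5)
  · left; exact zero_nsmul _
  · right; left; exact one_nsmul _
  · right; right; right; left; exact D.two_nsmul_pt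
  · right; right; right; right; exact D.three_nsmul_pt
  · right; right; left; exact D.four_nsmul_pt

end KleinPt

end Fermat.Agent.S52.Const.Torsion.Points
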