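/-
PROJECT W (S52), (T2) constancy, explicit route: the twist `(u, v) ↦ (z u, z⁴ v)` by a fifth root of
unity `z`.  Klein's forms are invariant (so the twisted point lies on the SAME curve), and the
`x`-coordinate of the twisted point `Q'` differs from `x(Q)` and from `x(2Q)` by factors of `f`:
`(x(Q') - x(Q)) * Ga = (12 z - 12) f²`, `(x(Q') - x(2Q)) * Gb = 12 f²` (up to the common factor `3 c²`).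
All cofactors were computed offline (exact arithmetic in `ℤ[z][u,v]`); only the identities are used.
-/
import Mathlib
import Fermat.Agent.S52.Const.Torsion.Forms

set_option autoImplicit false

namespace Fermat.Agent.S52.Const.Torsion.Twist

open Fermat.Agent.S52.Const.Torsion.Forms

variable {R : Type*} [CommRing R]

theorem kH_twist (u v z : R) (hz : z ^ 5 = 1) : kH (z * u) (z ^ 4 * v) = kH u v := by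
  unfold kH
  linear_combination (-v ^ 20 * z ^ 75 - v ^ 20 * z ^ 70 - v ^ 20 * z ^ 65 - 228 * u ^ 5 * v ^ 15 * z ^ 60 - v ^ 20 * z ^ 60 - 228 * u ^ 5 * v ^ 15 * z ^ 55
       - v ^ 20 * z ^ 55 - 228 * u ^ 5 * v ^ 15 * z ^ 50 - v ^ 20 * z ^ 50 - 494 * u ^ 10 * v ^ 10 * z ^ 45 - 228 * u ^ 5 * v ^ 15 * z ^ 45 - v ^ 20 * z ^ 45
       - 494 * u ^ 10 * v ^ 10 * z ^ 40 - 228 * u ^ 5 * v ^ 15 * z ^ 40 - v ^ 20 * z ^ 40 - 494 * u ^ 10 * v ^ 10 * z ^ 35 - 228 * u ^ 5 * v ^ 15 * z ^ 35 - v ^ 20 * z ^ 35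
       + 228 * u ^ 15 * v ^ 5 * z ^ 30 - 494 * u ^ 10 * v ^ 10 * z ^ 30 - 228 * u ^ 5 * v ^ 15 * z ^ 30 - v ^ 20 * z ^ 30 + 228 * u ^ 15 * v ^ 5 * z ^ 25 - 494 * u ^ 10 * v ^ 10 * z ^ 25
       - 228 * u ^ 5 * v ^ 15 * z ^ 25 - v ^ 20 * z ^ 25 + 228 * u ^ 15 * v ^ 5 * z ^ 20 - 494 * u ^ 10 * v ^ 10 * z ^ 20 - 228 * u ^ 5 * v ^ 15 * z ^ 20 - v ^ 20 * z ^ 20
       - u ^ 20 * z ^ 15 + 228 * u ^ 15 * v ^ 5 * z ^ 15 - 494 * u ^ 10 * v ^ 10 * z ^ 15 - 228 * u ^ 5 * v ^ 15 * z ^ 15 - v ^ 20 * z ^ 15 - u ^ 20 * z ^ 10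
       + 228 * u ^ 15 * v ^ 5 * z ^ 10 - 494 * u ^ 10 * v ^ 10 * z ^ 10 - 228 * u ^ 5 * v ^ 15 * z ^ 10 - v ^ 20 * z ^ 10 - u ^ 20 * z ^ 5 + 228 * u ^ 15 * v ^ 5 * z ^ 5
       - 494 * u ^ 10 * v ^ 10 * z ^ 5 - 228 * u ^ 5 * v ^ 15 * z ^ 5 - v ^ 20 * z ^ 5 - u ^ 20 + 228 * u ^ 15 * v ^ 5 - 494 * u ^ 10 * v ^ 10
       - 228 * u ^ 5 * v ^ 15 - v ^ 20) * hz

theorem kT_twist (u v z : R) (hz : z ^ 5 = 1) : kT (z * u) (z ^ 4 * v) = kT u v := by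
  unfold kT
  linear_combination (v ^ 30 * z ^ 115 + v ^ 30 * z ^ 110 + v ^ 30 * z ^ 105 - 522 * u ^ 5 * v ^ 25 * z ^ 100 + v ^ 30 * z ^ 100 - 522 * u ^ 5 * v ^ 25 * z ^ 95
       + v ^ 30 * z ^ 95 - 522 * u ^ 5 * v ^ 25 * z ^ 90 + v ^ 30 * z ^ 90 - 10005 * u ^ 10 * v ^ 20 * z ^ 85 - 522 * u ^ 5 * v ^ 25 * z ^ 85 + v ^ 30 * z ^ 85
       - 10005 * u ^ 10 * v ^ 20 * z ^ 80 - 522 * u ^ 5 * v ^ 25 * z ^ 80 + v ^ 30 * z ^ 80 - 10005 * u ^ 10 * v ^ 20 * z ^ 75 - 522 * u ^ 5 * v ^ 25 * z ^ 75 + v ^ 30 * z ^ 75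
       - 10005 * u ^ 10 * v ^ 20 * z ^ 70 - 522 * u ^ 5 * v ^ 25 * z ^ 70 + v ^ 30 * z ^ 70 - 10005 * u ^ 10 * v ^ 20 * z ^ 65 - 522 * u ^ 5 * v ^ 25 * z ^ 65 + v ^ 30 * z ^ 65
       - 10005 * u ^ 10 * v ^ 20 * z ^ 60 - 522 * u ^ 5 * v ^ 25 * z ^ 60 + v ^ 30 * z ^ 60 - 10005 * u ^ 20 * v ^ 10 * z ^ 55 - 10005 * u ^ 10 * v ^ 20 * z ^ 55 - 522 * u ^ 5 * v ^ 25 * z ^ 55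
       + v ^ 30 * z ^ 55 - 10005 * u ^ 20 * v ^ 10 * z ^ 50 - 10005 * u ^ 10 * v ^ 20 * z ^ 50 - 522 * u ^ 5 * v ^ 25 * z ^ 50 + v ^ 30 * z ^ 50 - 10005 * u ^ 20 * v ^ 10 * z ^ 45
       - 10005 * u ^ 10 * v ^ 20 * z ^ 45 - 522 * u ^ 5 * v ^ 25 * z ^ 45 + v ^ 30 * z ^ 45 + 522 * u ^ 25 * v ^ 5 * z ^ 40 - 10005 * u ^ 20 * v ^ 10 * z ^ 40 - 10005 * u ^ 10 * v ^ 20 * z ^ 40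
       - 522 * u ^ 5 * v ^ 25 * z ^ 40 + v ^ 30 * z ^ 40 + 522 * u ^ 25 * v ^ 5 * z ^ 35 - 10005 * u ^ 20 * v ^ 10 * z ^ 35 - 10005 * u ^ 10 * v ^ 20 * z ^ 35 - 522 * u ^ 5 * v ^ 25 * z ^ 35
       + v ^ 30 * z ^ 35 + 522 * u ^ 25 * v ^ 5 * z ^ 30 - 10005 * u ^ 20 * v ^ 10 * z ^ 30 - 10005 * u ^ 10 * v ^ 20 * z ^ 30 - 522 * u ^ 5 * v ^ 25 * z ^ 30 + v ^ 30 * z ^ 30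
       + u ^ 30 * z ^ 25 + 522 * u ^ 25 * v ^ 5 * z ^ 25 - 10005 * u ^ 20 * v ^ 10 * z ^ 25 - 10005 * u ^ 10 * v ^ 20 * z ^ 25 - 522 * u ^ 5 * v ^ 25 * z ^ 25 + v ^ 30 * z ^ 25
       + u ^ 30 * z ^ 20 + 522 * u ^ 25 * v ^ 5 * z ^ 20 - 10005 * u ^ 20 * v ^ 10 * z ^ 20 - 10005 * u ^ 10 * v ^ 20 * z ^ 20 - 522 * u ^ 5 * v ^ 25 * z ^ 20 + v ^ 30 * z ^ 20
       + u ^ 30 * z ^ 15 + 522 * u ^ 25 * v ^ 5 * z ^ 15 - 10005 * u ^ 20 * v ^ 10 * z ^ 15 - 10005 * u ^ 10 * v ^ 20 * z ^ 15 - 522 * u ^ 5 * v ^ 25 * z ^ 15 + v ^ 30 * z ^ 15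
       + u ^ 30 * z ^ 10 + 522 * u ^ 25 * v ^ 5 * z ^ 10 - 10005 * u ^ 20 * v ^ 10 * z ^ 10 - 10005 * u ^ 10 * v ^ 20 * z ^ 10 - 522 * u ^ 5 * v ^ 25 * z ^ 10 + v ^ 30 * z ^ 10
       + u ^ 30 * z ^ 5 + 522 * u ^ 25 * v ^ 5 * z ^ 5 - 10005 * u ^ 20 * v ^ 10 * z ^ 5 - 10005 * u ^ 10 * v ^ 20 * z ^ 5 - 522 * u ^ 5 * v ^ 25 * z ^ 5 + v ^ 30 * z ^ 5
       + u ^ 30 + 522 * u ^ 25 * v ^ 5 - 10005 * u ^ 20 * v ^ 10 - 10005 * u ^ 10 * v ^ 20 - 522 * u ^ 5 * v ^ 25 + v ^ 30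
      ) * hz

theorem kf_twist (u v z : R) (hz : z ^ 5 = 1) : kf (z * u) (z ^ 4 * v) = kf u v := by
  unfold kf
  linear_combination (-u * v ^ 11 * z ^ 40 - u * v ^ 11 * z ^ 35 - u * v ^ 11 * z ^ 30 + 11 * u ^ 6 * v ^ 6 * z ^ 25 - u * v ^ 11 * z ^ 25 + 11 * u ^ 6 * v ^ 6 * z ^ 20
       - u * v ^ 11 * z ^ 20 + 11 * u ^ 6 * v ^ 6 * z ^ 15 - u * v ^ 11 * z ^ 15 + u ^ 11 * v * z ^ 10 + 11 * u ^ 6 * v ^ 6 * z ^ 10 - u * v ^ 11 * z ^ 10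
       + u ^ 11 * v * z ^ 5 + 11 * u ^ 6 * v ^ 6 * z ^ 5 - u * v ^ 11 * z ^ 5 + u ^ 11 * v + 11 * u ^ 6 * v ^ 6 - u * v ^ 11
      ) * hz

/-- `q10 (z u) (z⁴ v)` reduced modulo `z⁵ = 1`. -/
def q10t (u v z : R) : R :=
  -12 * u ^ 7 * v ^ 3 * z ^ 4 + 24 * u ^ 2 * v ^ 8 * z ^ 4 + 60 * u ^ 4 * v ^ 6 * z ^ 3 + 24 * u ^ 6 * v ^ 4 * z ^ 2 + 12 * u * v ^ 9 * z ^ 2 + 12 * u ^ 8 * v ^ 2 * z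
       + 36 * u ^ 3 * v ^ 7 * z + u ^ 10 + 30 * u ^ 5 * v ^ 5 + v ^ 10

theorem q10_twist (u v z : R) (hz : z ^ 5 = 1) : q10 (z * u) (z ^ 4 * v) = q10t u v z := by
  unfold q10 q10t
  linear_combination (v ^ 10 * z ^ 35 + 12 * u * v ^ 9 * z ^ 32 + v ^ 10 * z ^ 30 + 24 * u ^ 2 * v ^ 8 * z ^ 29 + 12 * u * v ^ 9 * z ^ 27 + 36 * u ^ 3 * v ^ 7 * z ^ 26
       + v ^ 10 * z ^ 25 + 24 * u ^ 2 * v ^ 8 * z ^ 24 + 60 * u ^ 4 * v ^ 6 * z ^ 23 + 12 * u * v ^ 9 * z ^ 22 + 36 * u ^ 3 * v ^ 7 * z ^ 21 + 30 * u ^ 5 * v ^ 5 * z ^ 20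
       + v ^ 10 * z ^ 20 + 24 * u ^ 2 * v ^ 8 * z ^ 19 + 60 * u ^ 4 * v ^ 6 * z ^ 18 + 24 * u ^ 6 * v ^ 4 * z ^ 17 + 12 * u * v ^ 9 * z ^ 17 + 36 * u ^ 3 * v ^ 7 * z ^ 16
       + 30 * u ^ 5 * v ^ 5 * z ^ 15 + v ^ 10 * z ^ 15 - 12 * u ^ 7 * v ^ 3 * z ^ 14 + 24 * u ^ 2 * v ^ 8 * z ^ 14 + 60 * u ^ 4 * v ^ 6 * z ^ 13 + 24 * u ^ 6 * v ^ 4 * z ^ 12
       + 12 * u * v ^ 9 * z ^ 12 + 12 * u ^ 8 * v ^ 2 * z ^ 11 + 36 * u ^ 3 * v ^ 7 * z ^ 11 + 30 * u ^ 5 * v ^ 5 * z ^ 10 + v ^ 10 * z ^ 10 - 12 * u ^ 7 * v ^ 3 * z ^ 9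
       + 24 * u ^ 2 * v ^ 8 * z ^ 9 + 60 * u ^ 4 * v ^ 6 * z ^ 8 + 24 * u ^ 6 * v ^ 4 * z ^ 7 + 12 * u * v ^ 9 * z ^ 7 + 12 * u ^ 8 * v ^ 2 * z ^ 6 + 36 * u ^ 3 * v ^ 7 * z ^ 6
       + u ^ 10 * z ^ 5 + 30 * u ^ 5 * v ^ 5 * z ^ 5 + v ^ 10 * z ^ 5 - 12 * u ^ 7 * v ^ 3 * z ^ 4 + 24 * u ^ 2 * v ^ 8 * z ^ 4 + 60 * u ^ 4 * v ^ 6 * z ^ 3
       + 24 * u ^ 6 * v ^ 4 * z ^ 2 + 12 * u * v ^ 9 * z ^ 2 + 12 * u ^ 8 * v ^ 2 * z + 36 * u ^ 3 * v ^ 7 * z + u ^ 10 + 30 * u ^ 5 * v ^ 5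
       + v ^ 10) * hz

/-- cofactor of `x(Q') - x(Q)`. -/
def Ga (u v z : R) : R :=
  u ^ 13 * v * z ^ 3 + u ^ 12 * v ^ 2 * z ^ 3 - 4 * u ^ 11 * v ^ 3 * z ^ 3 + 10 * u ^ 9 * v ^ 5 * z ^ 3 + u ^ 8 * v ^ 6 * z ^ 3 - 4 * u ^ 7 * v ^ 7 * z ^ 3
       - 4 * u ^ 6 * v ^ 8 * z ^ 3 + 5 * u ^ 4 * v ^ 10 * z ^ 3 - 6 * u ^ 3 * v ^ 11 * z ^ 3 + 4 * u ^ 2 * v ^ 12 * z ^ 3 - u * v ^ 13 * z ^ 3 + u ^ 13 * v * z ^ 2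
       - 5 * u ^ 11 * v ^ 3 * z ^ 2 + 5 * u ^ 10 * v ^ 4 * z ^ 2 + 10 * u ^ 9 * v ^ 5 * z ^ 2 - 14 * u ^ 8 * v ^ 6 * z ^ 2 + 10 * u ^ 6 * v ^ 8 * z ^ 2 - 10 * u ^ 5 * v ^ 9 * z ^ 2
       + 5 * u ^ 4 * v ^ 10 * z ^ 2 - u ^ 3 * v ^ 11 * z ^ 2 + u ^ 13 * v * z - 2 * u ^ 12 * v ^ 2 * z - 4 * u ^ 11 * v ^ 3 * z + 10 * u ^ 10 * v ^ 4 * z
       - 14 * u ^ 8 * v ^ 6 * z + 3 * u ^ 7 * v ^ 7 * z - 4 * u ^ 6 * v ^ 8 * z + 5 * u ^ 5 * v ^ 9 * z - u ^ 3 * v ^ 11 * z + 2 * u ^ 2 * v ^ 12 * z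
       - u * v ^ 13 * z + u ^ 14 + u ^ 13 * v - 2 * u ^ 12 * v ^ 2 + 5 * u ^ 10 * v ^ 4 + 6 * u ^ 9 * v ^ 5
       + u ^ 8 * v ^ 6 + 3 * u ^ 7 * v ^ 7 - 10 * u ^ 5 * v ^ 9 + 9 * u ^ 4 * v ^ 10 - 6 * u ^ 3 * v ^ 11 + 2 * u ^ 2 * v ^ 12
      

/-- cofactor of `x(Q') - x(2Q)`. -/
def Gb (u v z : R) : R :=
  -u ^ 11 * v ^ 3 * z ^ 3 - 5 * u ^ 10 * v ^ 4 * z ^ 3 - 10 * u ^ 9 * v ^ 5 * z ^ 3 - 10 * u ^ 8 * v ^ 6 * z ^ 3 + 14 * u ^ 6 * v ^ 8 * z ^ 3 + 10 * u ^ 5 * v ^ 9 * z ^ 3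
       - 5 * u ^ 4 * v ^ 10 * z ^ 3 - 5 * u ^ 3 * v ^ 11 * z ^ 3 + u * v ^ 13 * z ^ 3 - u ^ 12 * v ^ 2 * z - 5 * u ^ 11 * v ^ 3 * z - 10 * u ^ 10 * v ^ 4 * z
       - 10 * u ^ 9 * v ^ 5 * z + 14 * u ^ 7 * v ^ 7 * z + 10 * u ^ 6 * v ^ 8 * z - 5 * u ^ 5 * v ^ 9 * z - 5 * u ^ 4 * v ^ 10 * z + u ^ 2 * v ^ 12 * z
       + u ^ 13 * v + 2 * u ^ 12 * v ^ 2 - 5 * u ^ 10 * v ^ 4 - 15 * u ^ 9 * v ^ 5 - 14 * u ^ 8 * v ^ 6 - 3 * u ^ 7 * v ^ 7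
       + 10 * u ^ 5 * v ^ 9 + 5 * u ^ 4 * v ^ 10 - u ^ 3 * v ^ 11 - 2 * u ^ 2 * v ^ 12

theorem sub_q10_mul (u v z : R) (hz : z ^ 4 + z ^ 3 + z ^ 2 + z + 1 = 0) :
    (q10t u v z - q10 u v) * Ga u v z = (12 * z - 12) * kf u v ^ 2 := by
  unfold q10t q10 Ga kf
  linear_combination (-12 * u ^ 20 * v ^ 4 * z ^ 3 - 12 * u ^ 19 * v ^ 5 * z ^ 3 + 48 * u ^ 18 * v ^ 6 * z ^ 3 - 120 * u ^ 16 * v ^ 8 * z ^ 3 + 12 * u ^ 15 * v ^ 9 * z ^ 3 + 72 * u ^ 14 * v ^ 10 * z ^ 3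
       - 48 * u ^ 13 * v ^ 11 * z ^ 3 + 180 * u ^ 11 * v ^ 13 * z ^ 3 + 96 * u ^ 10 * v ^ 14 * z ^ 3 - 144 * u ^ 9 * v ^ 15 * z ^ 3 - 84 * u ^ 8 * v ^ 16 * z ^ 3 + 120 * u ^ 6 * v ^ 18 * z ^ 3
       - 144 * u ^ 5 * v ^ 19 * z ^ 3 + 96 * u ^ 4 * v ^ 20 * z ^ 3 - 24 * u ^ 3 * v ^ 21 * z ^ 3 + 12 * u ^ 19 * v ^ 5 * z ^ 2 + 12 * u ^ 18 * v ^ 6 * z ^ 2 + 60 * u ^ 16 * v ^ 8 * z ^ 2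
       - 60 * u ^ 15 * v ^ 9 * z ^ 2 - 72 * u ^ 14 * v ^ 10 * z ^ 2 + 408 * u ^ 13 * v ^ 11 * z ^ 2 + 300 * u ^ 12 * v ^ 12 * z ^ 2 - 240 * u ^ 11 * v ^ 13 * z ^ 2 - 660 * u ^ 10 * v ^ 14 * z ^ 2
       + 144 * u ^ 9 * v ^ 15 * z ^ 2 + 624 * u ^ 8 * v ^ 16 * z ^ 2 - 600 * u ^ 7 * v ^ 17 * z ^ 2 + 240 * u ^ 6 * v ^ 18 * z ^ 2 + 60 * u ^ 5 * v ^ 19 * z ^ 2 - 96 * u ^ 4 * v ^ 20 * z ^ 2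
       + 24 * u ^ 3 * v ^ 21 * z ^ 2 + 48 * u ^ 19 * v ^ 5 * z + 12 * u ^ 18 * v ^ 6 * z - 156 * u ^ 17 * v ^ 7 * z + 60 * u ^ 16 * v ^ 8 * z + 180 * u ^ 15 * v ^ 9 * z
       + 252 * u ^ 14 * v ^ 10 * z + 108 * u ^ 13 * v ^ 11 * z - 1104 * u ^ 12 * v ^ 12 * z + 60 * u ^ 11 * v ^ 13 * z + 1080 * u ^ 10 * v ^ 14 * z - 684 * u ^ 9 * v ^ 15 * z
       - 276 * u ^ 8 * v ^ 16 * z + 588 * u ^ 7 * v ^ 17 * z - 360 * u ^ 6 * v ^ 18 * z + 120 * u ^ 5 * v ^ 19 * z - 24 * u ^ 4 * v ^ 20 * z + 24 * u ^ 3 * v ^ 21 * z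
       - 12 * u ^ 2 * v ^ 22 * z + 12 * u ^ 20 * v ^ 4 - 48 * u ^ 19 * v ^ 5 - 72 * u ^ 18 * v ^ 6 + 156 * u ^ 17 * v ^ 7 - 132 * u ^ 15 * v ^ 9
       - 252 * u ^ 14 * v ^ 10 - 468 * u ^ 13 * v ^ 11 + 804 * u ^ 12 * v ^ 12 - 516 * u ^ 10 * v ^ 14 + 684 * u ^ 9 * v ^ 15 - 264 * u ^ 8 * v ^ 16
       + 12 * u ^ 7 * v ^ 17 - 36 * u ^ 5 * v ^ 19 + 24 * u ^ 4 * v ^ 20 - 24 * u ^ 3 * v ^ 21 + 12 * u ^ 2 * v ^ 22) * hz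

theorem sub_r10_mul (u v z : R) (hz : z ^ 4 + z ^ 3 + z ^ 2 + z + 1 = 0) :
    (q10t u v z - r10 u v) * Gb u v z = (12) * kf u v ^ 2 := by
  unfold q10t r10 Gb kf
  linear_combination (12 * u ^ 18 * v ^ 6 * z ^ 3 + 60 * u ^ 17 * v ^ 7 * z ^ 3 + 120 * u ^ 16 * v ^ 8 * z ^ 3 + 120 * u ^ 15 * v ^ 9 * z ^ 3 - 192 * u ^ 13 * v ^ 11 * z ^ 3 - 240 * u ^ 12 * v ^ 12 * z ^ 3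
       - 180 * u ^ 11 * v ^ 13 * z ^ 3 - 180 * u ^ 10 * v ^ 14 * z ^ 3 + 324 * u ^ 8 * v ^ 16 * z ^ 3 + 240 * u ^ 7 * v ^ 17 * z ^ 3 - 120 * u ^ 6 * v ^ 18 * z ^ 3 - 120 * u ^ 5 * v ^ 19 * z ^ 3
       + 24 * u ^ 3 * v ^ 21 * z ^ 3 - 12 * u ^ 18 * v ^ 6 * z ^ 2 - 60 * u ^ 17 * v ^ 7 * z ^ 2 - 120 * u ^ 16 * v ^ 8 * z ^ 2 - 180 * u ^ 15 * v ^ 9 * z ^ 2 - 300 * u ^ 14 * v ^ 10 * z ^ 2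
       - 408 * u ^ 13 * v ^ 11 * z ^ 2 - 360 * u ^ 12 * v ^ 12 * z ^ 2 + 180 * u ^ 11 * v ^ 13 * z ^ 2 + 1020 * u ^ 10 * v ^ 14 * z ^ 2 + 600 * u ^ 9 * v ^ 15 * z ^ 2 - 624 * u ^ 8 * v ^ 16 * z ^ 2
       - 540 * u ^ 7 * v ^ 17 * z ^ 2 + 120 * u ^ 6 * v ^ 18 * z ^ 2 + 180 * u ^ 5 * v ^ 19 * z ^ 2 - 24 * u ^ 3 * v ^ 21 * z ^ 2 + 12 * u ^ 19 * v ^ 5 * z + 60 * u ^ 18 * v ^ 6 * z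
       + 96 * u ^ 17 * v ^ 7 * z - 180 * u ^ 15 * v ^ 9 * z - 132 * u ^ 14 * v ^ 10 * z + 360 * u ^ 13 * v ^ 11 * z + 744 * u ^ 12 * v ^ 12 * z - 1080 * u ^ 10 * v ^ 14 * z
       - 516 * u ^ 9 * v ^ 15 * z + 540 * u ^ 8 * v ^ 16 * z + 372 * u ^ 7 * v ^ 17 * z - 120 * u ^ 5 * v ^ 19 * z - 36 * u ^ 4 * v ^ 20 * z + 12 * u ^ 2 * v ^ 22 * z
       - 12 * u ^ 20 * v ^ 4 - 48 * u ^ 19 * v ^ 5 - 120 * u ^ 18 * v ^ 6 - 156 * u ^ 17 * v ^ 7 + 132 * u ^ 15 * v ^ 9 + 48 * u ^ 14 * v ^ 10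
       - 420 * u ^ 13 * v ^ 11 - 804 * u ^ 12 * v ^ 12 + 516 * u ^ 10 * v ^ 14 + 84 * u ^ 9 * v ^ 15 - 180 * u ^ 8 * v ^ 16 - 12 * u ^ 7 * v ^ 17
       + 36 * u ^ 5 * v ^ 19 + 24 * u ^ 4 * v ^ 20 - 12 * u ^ 2 * v ^ 22) * hz

theorem pow_five_eq_one (z : R) (hz : z ^ 4 + z ^ 3 + z ^ 2 + z + 1 = 0) : z ^ 5 = 1 := by
  linear_combination (z - 1) * hz

end Fermat.Agent.S52.Const.Torsion.Twist
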