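/-
PROJECT W (S52), (T2) constancy, explicit route: the second point `Q'` of order `5` (the twist of
`Q` by a primitive fifth root of unity `z`) and the independence of `Q`, `Q'`: on Klein's curve
`y² = x³ + a₄ x + a₆` (a `KleinPt`) the map `(m, n) ↦ m • Q + n • Q'` is an injective homomorphism
`(ZMod 5)² → E(F)`, so `E(F)` contains 25 points killed by 5.
-/
import Mathlib
import Fermat.Agent.S52.Const.Torsion.Points
import Fermat.Agent.S52.Const.Torsion.Twist

set_option autoImplicit false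

noncomputable section

namespace Fermat.Agent.S52.Const.Torsion.Indep

open WeierstrassCurve WeierstrassCurve.Affine WeierstrassCurve.Affine.Point
open Fermat.Agent.S52.Const.Torsion.Forms Fermat.Agent.S52.Const.Torsion.Points
open Fermat.Agent.S52.Const.Torsion.Twist

variable {F : Type*} [Field F] [DecidableEq F] [CharZero F]

/-- a primitive fifth root of unity. -/
def IsZeta5 (z : F) : Prop := z ^ 4 + z ^ 3 + z ^ 2 + z + 1 = 0

omit [DecidableEq F] [CharZero F] in
theorem IsZeta5.pow_five {z : F} (hz : IsZeta5 z) : z ^ 5 = 1 := pow_five_eq_one z hz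

omit [DecidableEq F] in
theorem IsZeta5.ne_one {z : F} (hz : IsZeta5 z) : z ≠ 1 := by
  rintro rfl
  unfold IsZeta5 at hz
  norm_num at hz

variable {a4 a6 : F}

/-- the twisted Klein parameter `(z u, z⁴ v)`: the same curve. -/
def twist (D : KleinPt a4 a6) {z : F} (hz : IsZeta5 z) : KleinPt a4 a6 where
  u := z * D.u
  v := z ^ 4 * D.v
  c := D.c
  hc := D.hc
  hf := by rw [kf_twist _ _ _ hz.pow_five]; exact D.hf
  h4 := by rw [kH_twist _ _ _ hz.pow_five]; exact D.h4
  h6 := by rw [kT_twist _ _ _ hz.pow_five]; exact D.h6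

omit [DecidableEq F] [CharZero F] in
theorem xQ_twist (D : KleinPt a4 a6) {z : F} (hz : IsZeta5 z) :
    xQ (twist D hz).u (twist D hz).v (twist D hz).c = 3 * D.c ^ 2 * q10t D.u D.v z := by
  show 3 * D.c ^ 2 * q10 (z * D.u) (z ^ 4 * D.v) = _
  rw [q10_twist _ _ _ hz.pow_five]

omit [DecidableEq F] in
/-- `x(Q') ≠ x(Q)`. -/
theorem xQ_twist_ne_xQ (D : KleinPt a4 a6) {z : F} (hz : IsZeta5 z) :
    xQ (twist D hz).u (twist D hz).v (twist D hz).c ≠ xQ D.u D.v D.c := by
  rw [xQ_twist]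
  unfold xQ
  intro h
  have h3 : (3 : F) * D.c ^ 2 ≠ 0 := mul_ne_zero (by norm_num) (pow_ne_zero _ D.hc)
  have h1 : q10t D.u D.v z = q10 D.u D.v := mul_left_cancel₀ h3 h
  have h2 := sub_q10_mul D.u D.v z hz
  rw [h1, sub_self, zero_mul] at h2
  have hz1 : (12 : F) * z - 12 ≠ 0 := by
    intro h0
    apply hz.ne_one
    have h12 : (12 : F) ≠ 0 := by norm_num
    apply mul_left_cancel₀ h12
    linear_combination h0
  exact (mul_ne_zero hz1 (pow_ne_zero 2 D.hf)) h2.symm

omit [DecidableEq F] in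
/-- `x(Q') ≠ x(2Q)`. -/
theorem xQ_twist_ne_xQ2 (D : KleinPt a4 a6) {z : F} (hz : IsZeta5 z) :
    xQ (twist D hz).u (twist D hz).v (twist D hz).c ≠ xQ2 D.u D.v D.c := by
  rw [xQ_twist]
  unfold xQ2
  intro h
  have h3 : (3 : F) * D.c ^ 2 ≠ 0 := mul_ne_zero (by norm_num) (pow_ne_zero _ D.hc)
  have h1 : q10t D.u D.v z = r10 D.u D.v := mul_left_cancel₀ h3 h
  have h2 := sub_r10_mul D.u D.v z hz
  rw [h1, sub_self, zero_mul] at h2
  have h12 : (12 : F) ≠ 0 := by norm_num
  exact (mul_ne_zero h12 (pow_ne_zero 2 D.hf)) h2.symm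

/-- `Q'` is not a multiple of `Q`. -/
theorem twist_pt_ne_nsmul (D : KleinPt a4 a6) {z : F} (hz : IsZeta5 z) (n : ℕ) :
    (twist D hz).pt ≠ n • D.pt := by
  intro h
  have hx1 := xQ_twist_ne_xQ D hz
  have hx2 := xQ_twist_ne_xQ2 D hz
  rcases D.nsmul_pt_cases n with h0 | h0 | h0 | h0 | h0 <;> rw [h0] at h
  · exact (twist D hz).pt_ne_zero h
  · unfold KleinPt.pt at h
    simp only [Point.some.injEq] at h
    exact hx1 h.1
  · rw [D.neg_pt] at h
    unfold KleinPt.pt at h
    simp only [Point.some.injEq] at h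
    exact hx1 h.1
  · unfold KleinPt.pt KleinPt.pt2 at h
    simp only [Point.some.injEq] at h
    exact hx2 h.1
  · rw [D.neg_pt2] at h
    unfold KleinPt.pt at h
    simp only [Point.some.injEq] at h
    exact hx2 h.1

/-- `m • Q = 0` only for `5 ∣ m`. -/
theorem dvd_of_nsmul_pt_eq_zero (D : KleinPt a4 a6) (m : ℕ) (h : m • D.pt = 0) : 5 ∣ m := by
  have h5 := D.five_nsmul_pt
  have hn : m • D.pt = (m % 5) • D.pt := by
    conv_lhs => rw [← Nat.div_add_mod m 5, add_nsmul, mul_nsmul, h5, nsmul_zero, zero_add]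
  rw [hn] at h
  have hlt : m % 5 < 5 := Nat.mod_lt _ (by norm_num)
  apply Nat.dvd_of_mod_eq_zero
  by_contra hne
  have h1 : 1 ≤ m % 5 := Nat.one_le_iff_ne_zero.mpr hne
  interval_cases hm : (m % 5)
  · rw [one_nsmul] at h; exact D.pt_ne_zero h
  · rw [D.two_nsmul_pt] at h; exact D.pt2_ne_zero h
  · rw [D.three_nsmul_pt] at h; exact D.pt2_ne_zero (neg_eq_zero.mp h)
  · rw [D.four_nsmul_pt] at h; exact D.pt_ne_zero (neg_eq_zero.mp h)

/-- independence of `Q` and `Q'`. -/
theorem dvd_of_nsmul_add_nsmul_eq_zero (D : KleinPt a4 a6) {z : F} (hz : IsZeta5 z) (m n : ℕ)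
    (h : m • D.pt + n • (twist D hz).pt = 0) : 5 ∣ m ∧ 5 ∣ n := by
  have hn : 5 ∣ n := by
    by_contra hn
    -- `n` is invertible mod 5
    have hcop : Nat.Coprime n 5 := by
      rw [Nat.coprime_comm]
      exact (Nat.Prime.coprime_iff_not_dvd (by norm_num)).mpr hn
    obtain ⟨k, -, hk⟩ := Nat.exists_mul_mod_eq_one_of_coprime hcop (by norm_num)
    -- `n • Q' = (4 m) • Q`
    have h1 : n • (twist D hz).pt = (4 * m) • D.pt := by
      have : n • (twist D hz).pt = -(m • D.pt) := eq_neg_of_add_eq_zero_right h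
      rw [this, mul_nsmul, ← neg_nsmul, ← D.four_nsmul_pt]
    -- hence `Q' = (k n) • Q' = (k 4 m) • Q`
    have h5' := (twist D hz).five_nsmul_pt
    have h2 : (twist D hz).pt = (n * k) • (twist D hz).pt := by
      conv_rhs => rw [← Nat.div_add_mod (n * k) 5, add_nsmul, mul_nsmul, h5', nsmul_zero,
        zero_add, hk, one_nsmul]
    have h3 : (twist D hz).pt = (k * (4 * m)) • D.pt := by
      conv_lhs => rw [h2]
      rw [mul_comm n k, mul_nsmul', h1, ← mul_nsmul']
    exact twist_pt_ne_nsmul D hz _ h3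
  refine ⟨?_, hn⟩
  obtain ⟨j, rfl⟩ := hn
  have h5' := (twist D hz).five_nsmul_pt
  rw [mul_nsmul, h5', nsmul_zero, add_zero] at h
  exact dvd_of_nsmul_pt_eq_zero D m h

end Fermat.Agent.S52.Const.Torsion.Indep
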