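/-
PROJECT W (S52), (T2) constancy, explicit route: on Klein's curve `y² = x³ + a₄ x + a₆` over a field
`F` of characteristic zero containing a primitive fifth root of unity, EVERY point of `E(F)` killed
by `5` is `m • Q + n • Q'` with the two explicit points `Q`, `Q'` (25 points, and main's
`S51/TorsionGeo.five_torsion_count` says there are at most 25).  Applied to `F = Q̄(t)` (or to an
algebraic closure of it, with the parameters `u, v, c, z` in `Q̄(t)`) this is `E_t[5] ⊆ E_t(Q̄(t))`.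
-/
import Mathlib
import Fermat.Agent.S52.Const.Torsion.Indep
import Fermat.Agent.S51.TorsionGeo

set_option autoImplicit false

noncomputable section

namespace Fermat.Agent.S52.Const.Torsion.Full

open WeierstrassCurve WeierstrassCurve.Affine WeierstrassCurve.Affine.Point
open Fermat.Agent.S52.Const.Torsion.Forms Fermat.Agent.S52.Const.Torsion.Points
open Fermat.Agent.S52.Const.Torsion.Twist Fermat.Agent.S52.Const.Torsion.Indep

variable {F : Type*} [Field F] [DecidableEq F] [CharZero F] {a4 a6 : F}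

omit [DecidableEq F] [CharZero F] in
/-- the discriminant of Klein's curve is a unit times `f⁵`. -/
theorem short_Δ (D : KleinPt a4 a6) :
    (short a4 a6).Δ = -(1259712 * 1728) * D.c ^ 12 * kf D.u D.v ^ 5 := by
  obtain ⟨u, v, c, hc, hf, rfl, rfl⟩ := D
  have hs := syzygy u v
  simp only [WeierstrassCurve.Δ, WeierstrassCurve.b₂, WeierstrassCurve.b₄, WeierstrassCurve.b₆,
    WeierstrassCurve.b₈, short]
  linear_combination (-1259712 * c ^ 12) * hs

omit [DecidableEq F] in
theorem short_Δ_ne_zero (D : KleinPt a4 a6) : (short a4 a6).Δ ≠ 0 := by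
  rw [short_Δ D]
  exact mul_ne_zero (mul_ne_zero (by norm_num) (pow_ne_zero _ D.hc)) (pow_ne_zero _ D.hf)

/-- the 25 points. -/
def pt25 (D : KleinPt a4 a6) {z : F} (hz : IsZeta5 z) (mn : Fin 5 × Fin 5) : (short a4 a6).Point :=
  (mn.1 : ℕ) • D.pt + (mn.2 : ℕ) • (twist D hz).pt

theorem five_nsmul_pt25 (D : KleinPt a4 a6) {z : F} (hz : IsZeta5 z) (mn : Fin 5 × Fin 5) :
    (5 : ℕ) • pt25 D hz mn = 0 := by
  unfold pt25
  rw [nsmul_add, smul_comm (5 : ℕ) (mn.1 : ℕ), D.five_nsmul_pt, nsmul_zero,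
    smul_comm (5 : ℕ) (mn.2 : ℕ), (twist D hz).five_nsmul_pt, nsmul_zero, add_zero]

theorem pt25_injective (D : KleinPt a4 a6) {z : F} (hz : IsZeta5 z) :
    Function.Injective (pt25 D hz) := by
  rintro ⟨m, n⟩ ⟨m', n'⟩ h
  change (m : ℕ) • D.pt + (n : ℕ) • (twist D hz).pt
    = (m' : ℕ) • D.pt + (n' : ℕ) • (twist D hz).pt at h
  have key : ((m : ℕ) + (5 - (m' : ℕ))) • D.pt + ((n : ℕ) + (5 - (n' : ℕ))) • (twist D hz).pt
      = 0 := by
    have e1 : ((m' : ℕ) + (5 - (m' : ℕ))) = 5 := by have := m'.isLt; omega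
    have e2 : ((n' : ℕ) + (5 - (n' : ℕ))) = 5 := by have := n'.isLt; omega
    calc ((m : ℕ) + (5 - (m' : ℕ))) • D.pt + ((n : ℕ) + (5 - (n' : ℕ))) • (twist D hz).pt
        = ((m : ℕ) • D.pt + (n : ℕ) • (twist D hz).pt)
            + ((5 - (m' : ℕ)) • D.pt + (5 - (n' : ℕ)) • (twist D hz).pt) := by
          rw [add_nsmul, add_nsmul]; abel
      _ = ((m' : ℕ) • D.pt + (n' : ℕ) • (twist D hz).pt)
            + ((5 - (m' : ℕ)) • D.pt + (5 - (n' : ℕ)) • (twist D hz).pt) := by rw [h]
      _ = ((m' : ℕ) + (5 - (m' : ℕ))) • D.pt + ((n' : ℕ) + (5 - (n' : ℕ))) • (twist D hz).pt := by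
          rw [add_nsmul, add_nsmul]; abel
      _ = 0 := by
          rw [e1, e2, D.five_nsmul_pt, (twist D hz).five_nsmul_pt, add_zero]
  obtain ⟨h1, h2⟩ := dvd_of_nsmul_add_nsmul_eq_zero D hz _ _ key
  have hm := m.isLt
  have hm' := m'.isLt
  have hn := n.isLt
  have hn' := n'.isLt
  have em : (m : ℕ) = m' := by omega
  have en : (n : ℕ) = n' := by omega
  exact Prod.ext (Fin.ext em) (Fin.ext en)

/-- **Every point of `E(F)` killed by `5` is one of the 25 explicit points.** -/
theorem exists_eq_pt25 (D : KleinPt a4 a6) {z : F} (hz : IsZeta5 z) (P : (short a4 a6).Point)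
    (hP : (5 : ℕ) • P = 0) : ∃ mn : Fin 5 × Fin 5, pt25 D hz mn = P := by
  classical
  obtain ⟨hfin, hcard⟩ :=
    Fermat.Agent.S51.TorsionGeo.five_torsion_count (short a4 a6) (short_Δ_ne_zero D)
  set S : Set (short a4 a6).Point := {P | (5 : ℕ) • P = 0} with hS
  have himg : Set.range (pt25 D hz) ⊆ S := by
    rintro _ ⟨mn, rfl⟩
    exact five_nsmul_pt25 D hz mn
  have hcard_img : (Set.range (pt25 D hz)).ncard = 25 := by
    rw [← Set.image_univ, Set.ncard_image_of_injective _ (pt25_injective D hz),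
      Set.ncard_univ, Nat.card_eq_fintype_card]
    simp
  have heq : Set.range (pt25 D hz) = S := by
    apply Set.eq_of_subset_of_ncard_le himg _ hfin
    rw [hcard_img]
    exact hcard
  have : P ∈ S := hP
  rw [← heq] at this
  exact this

/-- the same with natural-number coefficients. -/
theorem exists_eq_nsmul_add_nsmul (D : KleinPt a4 a6) {z : F} (hz : IsZeta5 z)
    (P : (short a4 a6).Point) (hP : (5 : ℕ) • P = 0) :
    ∃ m n : ℕ, m < 5 ∧ n < 5 ∧ P = m • D.pt + n • (twist D hz).pt := by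
  obtain ⟨⟨m, n⟩, h⟩ := exists_eq_pt25 D hz P hP
  exact ⟨m, n, m.isLt, n.isLt, h.symm⟩

end Fermat.Agent.S52.Const.Torsion.Full
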