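/-
PROJECT W (S52), (T2) constancy, explicit route: the export asked by the chief (ruling W-3 (3)(b)):
for ANY short Weierstrass curve `W` over a field `F` of characteristic zero (`a₁ = a₂ = a₃ = 0`)
with `a₄ = 27 H(u,v)`, `a₆ = 54 T(u,v)`, `f(u,v) ≠ 0` and a primitive fifth root of unity `z ∈ F`,
the two points `Q = (3 q10(u,v), 108 q15(u,v))` and `Q' = Q(z u, z⁴ v)` are a basis of the points
of `W(F)` killed by `5`.  No dependent casts on the curve; ring-hom compatibility of all the forms.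
-/
import Mathlib
import Fermat.Agent.S52.Const.Torsion.Full

set_option autoImplicit false

noncomputable section

namespace Fermat.Agent.S52.Const.Torsion.Basis

open WeierstrassCurve WeierstrassCurve.Affine WeierstrassCurve.Affine.Point
open Fermat.Agent.S52.Const.Torsion.Forms Fermat.Agent.S52.Const.Torsion.Points
open Fermat.Agent.S52.Const.Torsion.Twist Fermat.Agent.S52.Const.Torsion.Indep
open Fermat.Agent.S52.Const.Torsion.Full

/-! ### ring homomorphisms commute with the forms -/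

section maps

variable {R S : Type*} [CommRing R] [CommRing S] (φ : R →+* S) (u v : R)

@[simp] theorem map_kf : φ (kf u v) = kf (φ u) (φ v) := by
  unfold kf; simp only [map_mul, map_add, map_sub, map_pow, map_ofNat]
@[simp] theorem map_kH : φ (kH u v) = kH (φ u) (φ v) := by
  unfold kH; simp only [map_mul, map_add, map_sub, map_neg, map_pow, map_ofNat]
@[simp] theorem map_kT : φ (kT u v) = kT (φ u) (φ v) := by
  unfold kT; simp only [map_mul, map_add, map_sub, map_pow, map_ofNat]
@[simp] theorem map_kg : φ (kg u v) = kg (φ u) (φ v) := by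
  unfold kg; simp only [map_mul, map_add, map_sub, map_pow]
@[simp] theorem map_q10 : φ (q10 u v) = q10 (φ u) (φ v) := by
  unfold q10; simp only [map_mul, map_add, map_sub, map_pow, map_ofNat]
@[simp] theorem map_q15 : φ (q15 u v) = q15 (φ u) (φ v) := by
  unfold q15; simp only [map_mul, map_add, map_pow, map_ofNat]
@[simp] theorem map_r10 : φ (r10 u v) = r10 (φ u) (φ v) := by
  unfold r10; simp only [map_mul, map_add, map_sub, map_pow, map_ofNat]
@[simp] theorem map_r15 : φ (r15 u v) = r15 (φ u) (φ v) := by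
  unfold r15; simp only [map_mul, map_add, map_sub, map_pow, map_ofNat]

end maps

variable {F : Type*} [Field F]

/-- the hypotheses of the export: a short Weierstrass curve which is Klein's curve at `(u, v)`. -/
structure IsKleinAt (W : Affine F) (u v : F) : Prop where
  h1 : W.a₁ = 0
  h2 : W.a₂ = 0
  h3 : W.a₃ = 0
  h4 : W.a₄ = 27 * kH u v
  h6 : W.a₆ = 54 * kT u v
  hf : kf u v ≠ 0

namespace IsKleinAt

variable {W : Affine F} {u v : F}

theorem eq_short (h : IsKleinAt W u v) : W = short W.a₄ W.a₆ := by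
  obtain ⟨a1, a2, a3, a4, a6⟩ := W
  obtain ⟨h1, h2, h3, -, -, -⟩ := h
  simp only at h1 h2 h3
  subst h1 h2 h3
  rfl

/-- the Klein parameter (with `c = 1`). -/
def kleinPt (h : IsKleinAt W u v) : KleinPt W.a₄ W.a₆ where
  u := u
  v := v
  c := 1
  hc := one_ne_zero
  hf := h.hf
  h4 := by rw [h.h4]; ring
  h6 := by rw [h.h6]; ring

theorem twist_isKleinAt (h : IsKleinAt W u v) {z : F} (hz : z ^ 4 + z ^ 3 + z ^ 2 + z + 1 = 0) :
    IsKleinAt W (z * u) (z ^ 4 * v) where
  h1 := h.h1
  h2 := h.h2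
  h3 := h.h3
  h4 := by rw [kH_twist _ _ _ (pow_five_eq_one z hz)]; exact h.h4
  h6 := by rw [kT_twist _ _ _ (pow_five_eq_one z hz)]; exact h.h6
  hf := by rw [kf_twist _ _ _ (pow_five_eq_one z hz)]; exact h.hf

variable [CharZero F]

theorem nonsingular (h : IsKleinAt W u v) : W.Nonsingular (3 * q10 u v) (108 * q15 u v) := by
  have e := h.eq_short
  have := h.kleinPt.nonsingular_Q
  rw [← e] at this
  have hx : xQ h.kleinPt.u h.kleinPt.v h.kleinPt.c = 3 * q10 u v := by
    show 3 * (1 : F) ^ 2 * q10 u v = _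
    ring
  have hy : yQ h.kleinPt.u h.kleinPt.v h.kleinPt.c = 108 * q15 u v := by
    show 108 * (1 : F) ^ 3 * q15 u v = _
    ring
  rw [hx, hy] at this
  exact this

/-- the point `Q`. -/
def ptQ (h : IsKleinAt W u v) : W.Point := Point.some _ _ h.nonsingular

theorem ptQ_ne_zero (h : IsKleinAt W u v) : h.ptQ ≠ 0 := Point.some_ne_zero _

end IsKleinAt

variable [CharZero F] [DecidableEq F]

theorem five_aux {a4 a6 : F} {u v : F} (h : IsKleinAt (short a4 a6) u v) :
    (5 : ℕ) • h.ptQ = 0 := by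
  let D : KleinPt a4 a6 :=
    { u := u, v := v, c := 1, hc := one_ne_zero, hf := h.hf
      h4 := by have := h.h4; simp only [short] at this; rw [this]; ring
      h6 := by have := h.h6; simp only [short] at this; rw [this]; ring }
  have e1 : h.ptQ = D.pt := by
    unfold IsKleinAt.ptQ KleinPt.pt
    simp only [Point.some.injEq]
    constructor
    · show _ = 3 * (1 : F) ^ 2 * q10 u v
      ring
    · show _ = 108 * (1 : F) ^ 3 * q15 u v
      ring
  rw [e1]
  exact D.five_nsmul_pt

/-- transport of the results on `short a₄ a₆` to `W`. -/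
theorem basis_aux {a4 a6 : F} {u v z : F} (h : IsKleinAt (short a4 a6) u v)
    (hz : z ^ 4 + z ^ 3 + z ^ 2 + z + 1 = 0) :
    (5 : ℕ) • h.ptQ = 0 ∧ (5 : ℕ) • (h.twist_isKleinAt hz).ptQ = 0 ∧
      (∀ m n : ℕ, m • h.ptQ + n • (h.twist_isKleinAt hz).ptQ = 0 → 5 ∣ m ∧ 5 ∣ n) ∧
      ∀ R : (short a4 a6).Point, (5 : ℕ) • R = 0 →
        ∃ m n : ℕ, m < 5 ∧ n < 5 ∧ R = m • h.ptQ + n • (h.twist_isKleinAt hz).ptQ := by
  -- the Klein parameter of `short a4 a6` itself
  let D : KleinPt a4 a6 :=
    { u := u, v := v, c := 1, hc := one_ne_zero, hf := h.hf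
      h4 := by have := h.h4; simp only [short] at this; rw [this]; ring
      h6 := by have := h.h6; simp only [short] at this; rw [this]; ring }
  have hz' : IsZeta5 z := hz
  have e1 : h.ptQ = D.pt := by
    unfold IsKleinAt.ptQ KleinPt.pt
    simp only [Point.some.injEq]
    constructor
    · show _ = 3 * (1 : F) ^ 2 * q10 u v
      ring
    · show _ = 108 * (1 : F) ^ 3 * q15 u v
      ring
  have e2 : (h.twist_isKleinAt hz).ptQ = (twist D hz').pt := by
    unfold IsKleinAt.ptQ KleinPt.pt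
    simp only [Point.some.injEq]
    constructor
    · show _ = 3 * (1 : F) ^ 2 * q10 (z * u) (z ^ 4 * v)
      ring
    · show _ = 108 * (1 : F) ^ 3 * q15 (z * u) (z ^ 4 * v)
      ring
  rw [e1, e2]
  exact ⟨D.five_nsmul_pt, (twist D hz').five_nsmul_pt,
    fun m n => dvd_of_nsmul_add_nsmul_eq_zero D hz' m n,
    fun R hR => exists_eq_nsmul_add_nsmul D hz' R hR⟩

variable {W : Affine F} {u v z : F}

/-- **The export.**  `Q` and `Q'` are killed by `5`, independent, and generate the points killed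
by `5`. -/
theorem basis (h : IsKleinAt W u v) (hz : z ^ 4 + z ^ 3 + z ^ 2 + z + 1 = 0) :
    (5 : ℕ) • h.ptQ = 0 ∧ (5 : ℕ) • (h.twist_isKleinAt hz).ptQ = 0 ∧
      (∀ m n : ℕ, m • h.ptQ + n • (h.twist_isKleinAt hz).ptQ = 0 → 5 ∣ m ∧ 5 ∣ n) ∧
      ∀ R : W.Point, (5 : ℕ) • R = 0 →
        ∃ m n : ℕ, m < 5 ∧ n < 5 ∧ R = m • h.ptQ + n • (h.twist_isKleinAt hz).ptQ := by
  obtain ⟨a1, a2, a3, a4, a6⟩ := W
  have h1 := h.h1
  have h2 := h.h2
  have h3 := h.h3
  simp only at h1 h2 h3
  subst h1 h2 h3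
  exact basis_aux (a4 := a4) (a6 := a6) h hz

theorem five_nsmul_ptQ (h : IsKleinAt W u v) : (5 : ℕ) • h.ptQ = 0 := by
  obtain ⟨a1, a2, a3, a4, a6⟩ := W
  have h1 := h.h1
  have h2 := h.h2
  have h3 := h.h3
  simp only at h1 h2 h3
  subst h1 h2 h3
  exact five_aux (a4 := a4) (a6 := a6) h

/-- the bijection `(ZMod 5)² ≃ {R // 5 • R = 0}`, as a statement. -/
theorem bijective_basis (h : IsKleinAt W u v) (hz : z ^ 4 + z ^ 3 + z ^ 2 + z + 1 = 0) :
    Function.Bijective (fun mn : ZMod 5 × ZMod 5 =>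
      (⟨mn.1.val • h.ptQ + mn.2.val • (h.twist_isKleinAt hz).ptQ, by
        obtain ⟨h5, h5', -, -⟩ := basis h hz
        rw [nsmul_add, smul_comm (5 : ℕ) mn.1.val, h5, nsmul_zero,
          smul_comm (5 : ℕ) mn.2.val, h5', nsmul_zero, add_zero]⟩ :
        {R : W.Point // (5 : ℕ) • R = 0})) := by
  obtain ⟨h5, h5', hind, hgen⟩ := basis h hz
  constructor
  · rintro ⟨m, n⟩ ⟨m', n'⟩ hmn
    have hmn' : m.val • h.ptQ + n.val • (h.twist_isKleinAt hz).ptQ
        = m'.val • h.ptQ + n'.val • (h.twist_isKleinAt hz).ptQ := congrArg Subtype.val hmn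
    have hm := ZMod.val_lt m
    have hm' := ZMod.val_lt m'
    have hn := ZMod.val_lt n
    have hn' := ZMod.val_lt n'
    have key : (m.val + (5 - m'.val)) • h.ptQ + (n.val + (5 - n'.val)) • (h.twist_isKleinAt hz).ptQ
        = 0 := by
      have e1 : m'.val + (5 - m'.val) = 5 := by omega
      have e2 : n'.val + (5 - n'.val) = 5 := by omega
      calc (m.val + (5 - m'.val)) • h.ptQ + (n.val + (5 - n'.val)) • (h.twist_isKleinAt hz).ptQ
          = (m.val • h.ptQ + n.val • (h.twist_isKleinAt hz).ptQ)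
              + ((5 - m'.val) • h.ptQ + (5 - n'.val) • (h.twist_isKleinAt hz).ptQ) := by
            rw [add_nsmul, add_nsmul]; abel
        _ = (m'.val • h.ptQ + n'.val • (h.twist_isKleinAt hz).ptQ)
              + ((5 - m'.val) • h.ptQ + (5 - n'.val) • (h.twist_isKleinAt hz).ptQ) := by rw [hmn']
        _ = (m'.val + (5 - m'.val)) • h.ptQ
              + (n'.val + (5 - n'.val)) • (h.twist_isKleinAt hz).ptQ := by
            rw [add_nsmul, add_nsmul]; abel
        _ = 0 := by rw [e1, e2, h5, h5', add_zero]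
    obtain ⟨d1, d2⟩ := hind _ _ key
    have em : m.val = m'.val := by omega
    have en : n.val = n'.val := by omega
    exact Prod.ext (ZMod.val_injective 5 em) (ZMod.val_injective 5 en)
  · rintro ⟨R, hR⟩
    obtain ⟨m, n, hm, hn, rfl⟩ := hgen R hR
    refine ⟨((m : ZMod 5), (n : ZMod 5)), Subtype.ext ?_⟩
    show ((m : ZMod 5)).val • h.ptQ + ((n : ZMod 5)).val • (h.twist_isKleinAt hz).ptQ = _
    rw [ZMod.val_natCast, ZMod.val_natCast, Nat.mod_eq_of_lt hm, Nat.mod_eq_of_lt hn]

end Fermat.Agent.S52.Const.Torsion.Basis
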